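/-
Project S35, cell [ABEL-SS] (helper13): THE COMPOSITUM `F̄ = kb · coeffMap j (F1) ⊆ kb((X))` AND THE
HYPOTHESES OF `s35bs_abel` FOR IT.  Prefix `s35bs_`.

`j : k1 → kb` fields, `F1 ⊆ k1((X))` an intermediate field.

* `s35bs_comp j F1`            : `F̄ := kb(coeffMap j '' F1)`;
* `s35bs_comp_stable`          : `F̄` is stable under `coeffMap ψb` if `F1` is stable under `coeffMap ψ1`
                                 and `j ∘ ψ1 = ψb ∘ j`;
* `s35bs_comp_frob(_symm)`     : the Frobenius instances (= `hFr`, `hFr'` of `s35bs_abel`);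
* `s35bs_comp_frob_fixed`, `s35bs_order_coeffMap` : `hFq`, `hord` of `s35bs_abel` from `x1 ∈ F1`;
* `s35bs_comp_rank_le`, `s35bs_comp_finiteDimensional`, `s35bs_comp_finrank_le` :
       `[F̄ : kb(x̄)] ≤ [F1 : k1(x1)]` (`x̄ = coeffMap j x1`).
-/
import Mathlib
import Fermat.Prelude.Def_ModularCurve_LaurentCoeff

set_option autoImplicit false
set_option linter.unusedSectionVars false
set_option linter.unusedVariables false
set_option linter.style.haveILetI false

noncomputable section

namespace Fermat.Agent.S35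

open ModularCurve IntermediateField

section Comp

variable {k1 kb : Type*} [Field k1] [Field kb] (j : k1 →+* kb)
  (F1 : IntermediateField k1 (LaurentSeries k1))

/-- the compositum `kb · coeffMap j (F1)` inside `kb((X))`. -/
def s35bs_comp : IntermediateField kb (LaurentSeries kb) :=
  IntermediateField.adjoin kb (coeffMap j '' (F1 : Set (LaurentSeries k1)))

theorem s35bs_map_mem_comp {y : LaurentSeries k1} (hy : y ∈ F1) :
    coeffMap j y ∈ s35bs_comp j F1 :=
  IntermediateField.subset_adjoin kb _ ⟨y, hy, rfl⟩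

theorem s35bs_comp_le_adjoin :
    s35bs_comp j F1 ≤ IntermediateField.adjoin kb (coeffMap j '' (F1 : Set (LaurentSeries k1))) :=
  le_rfl

/-- stability of the compositum under a coefficientwise endomorphism. -/
theorem s35bs_comp_stable (ψ1 : k1 →+* k1) (ψb : kb →+* kb) (hcomm : ∀ a, j (ψ1 a) = ψb (j a))
    (h1 : ∀ y ∈ F1, coeffMap ψ1 y ∈ F1) :
    ∀ y ∈ s35bs_comp j F1, coeffMap ψb y ∈ s35bs_comp j F1 := by
  let T : IntermediateField kb (LaurentSeries kb) :=
    { carrier := {y | coeffMap ψb y ∈ s35bs_comp j F1}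
      mul_mem' := fun {a b} ha hb => by
        show coeffMap ψb (a * b) ∈ s35bs_comp j F1
        rw [map_mul]; exact (s35bs_comp j F1).mul_mem ha hb
      add_mem' := fun {a b} ha hb => by
        show coeffMap ψb (a + b) ∈ s35bs_comp j F1
        rw [map_add]; exact (s35bs_comp j F1).add_mem ha hb
      algebraMap_mem' := fun c => by
        show coeffMap ψb (algebraMap kb (LaurentSeries kb) c) ∈ s35bs_comp j F1
        rw [coeffMap_algebraMap]; exact (s35bs_comp j F1).algebraMap_mem _
      inv_mem' := fun a ha => by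
        show coeffMap ψb a⁻¹ ∈ s35bs_comp j F1
        rw [map_inv₀]; exact (s35bs_comp j F1).inv_mem ha }
  have hle : s35bs_comp j F1 ≤ T := by
    rw [s35bs_comp, IntermediateField.adjoin_le_iff]
    rintro _ ⟨f, hf, rfl⟩
    show coeffMap ψb (coeffMap j f) ∈ s35bs_comp j F1
    have : coeffMap ψb (coeffMap j f) = coeffMap j (coeffMap ψ1 f) := by
      rw [coeffMap_coeffMap, coeffMap_coeffMap]
      exact coeffMap_congr (RingHom.ext fun a => (hcomm a).symm) f
    rw [this]
    exact s35bs_map_mem_comp j F1 (h1 f hf)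
  exact fun y hy => hle hy

variable {q : ℕ} [hq : Fact q.Prime] [CharP k1 q] [CharP kb q]

/-- `hFr` of `s35bs_abel` for the compositum. -/
theorem s35bs_comp_frob (h1 : ∀ y ∈ F1, coeffMap (frobenius k1 q) y ∈ F1) :
    ∀ y ∈ s35bs_comp j F1, coeffMap (frobenius kb q) y ∈ s35bs_comp j F1 :=
  s35bs_comp_stable j F1 (frobenius k1 q) (frobenius kb q)
    (fun a => by rw [frobenius_def, frobenius_def, map_pow]) h1

/-- `hFr'` of `s35bs_abel` for the compositum. -/
theorem s35bs_comp_frob_symm [PerfectRing k1 q] [PerfectRing kb q]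
    (h1 : ∀ y ∈ F1, coeffMap ((frobeniusEquiv k1 q).symm : k1 →+* k1) y ∈ F1) :
    ∀ y ∈ s35bs_comp j F1,
      coeffMap ((frobeniusEquiv kb q).symm : kb →+* kb) y ∈ s35bs_comp j F1 := by
  refine s35bs_comp_stable j F1 ((frobeniusEquiv k1 q).symm : k1 →+* k1)
    ((frobeniusEquiv kb q).symm : kb →+* kb) (fun a => ?_) h1
  show j ((frobeniusEquiv k1 q).symm a) = (frobeniusEquiv kb q).symm (j a)
  apply (frobeniusEquiv kb q).injective
  rw [RingEquiv.apply_symm_apply, frobeniusEquiv_apply, frobenius_def, ← map_pow,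
    ← frobenius_def, ← frobeniusEquiv_apply, RingEquiv.apply_symm_apply]

omit hq [CharP k1 q] [CharP kb q] in
/-- `coeffMap j` preserves the `X`-order. -/
theorem s35bs_order_coeffMap (y : LaurentSeries k1) : (coeffMap j y).order = y.order := by
  rcases eq_or_ne y 0 with rfl | hy
  · rw [map_zero, HahnSeries.order_zero, HahnSeries.order_zero]
  have hy' : coeffMap j y ≠ 0 := (map_ne_zero (coeffMap j)).mpr hy
  apply le_antisymm
  · apply HahnSeries.order_le_of_coeff_ne_zero
    rw [coeffMap_coeff]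
    exact (map_ne_zero j).mpr (HahnSeries.coeff_order_eq_zero.not.mpr hy)
  · apply HahnSeries.order_le_of_coeff_ne_zero
    have h1 := HahnSeries.coeff_order_eq_zero.not.mpr hy'
    rw [coeffMap_coeff] at h1
    intro h0
    exact h1 (by rw [h0, map_zero])

/-- `hFq` of `s35bs_abel` for `x̄ = coeffMap j x1`. -/
theorem s35bs_comp_frob_fixed {x1 : LaurentSeries k1}
    (hx1 : coeffMap (frobenius k1 q) x1 = x1) :
    coeffMap (frobenius kb q) (coeffMap j x1) = coeffMap j x1 := by
  have : coeffMap (frobenius kb q) (coeffMap j x1) = coeffMap j (coeffMap (frobenius k1 q) x1) := by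
    rw [coeffMap_coeffMap, coeffMap_coeffMap]
    refine coeffMap_congr (RingHom.ext fun a => ?_) x1
    show frobenius kb q (j a) = j (frobenius k1 q a)
    rw [frobenius_def, frobenius_def, map_pow]
  rw [this, hx1]

/-! ### the degree of the compositum -/

section Degree

omit hq [CharP k1 q] [CharP kb q]

variable (x1 : ↥F1)

/-- `coeffMap j` maps `k1(x1)` into `kb(x̄)`. -/
theorem s35bs_map_mem_adjoin_simple {c : ↥F1} (hc : c ∈ k1⟮x1⟯) :
    coeffMap j (c : LaurentSeries k1) ∈ kb⟮coeffMap j (x1 : LaurentSeries k1)⟯ := by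
  have h1 : F1.val c ∈ (k1⟮x1⟯).map F1.val := ⟨c, hc, rfl⟩
  rw [IntermediateField.adjoin_map, Set.image_singleton] at h1
  have h2 : (IntermediateField.adjoin k1 {(x1 : LaurentSeries k1)}).toSubfield ≤
      (kb⟮coeffMap j (x1 : LaurentSeries k1)⟯).toSubfield.comap (coeffMap j) := by
    rw [IntermediateField.adjoin_toSubfield, Subfield.closure_le]
    rintro y (⟨a, rfl⟩ | hy)
    · show coeffMap j (algebraMap k1 (LaurentSeries k1) a) ∈ kb⟮coeffMap j (x1 : LaurentSeries k1)⟯
      rw [algebraMap_laurentSeries_eq_single, coeffMap_single,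
        ← algebraMap_laurentSeries_eq_single]
      exact IntermediateField.algebraMap_mem _ _
    · rw [Set.mem_singleton_iff] at hy
      subst hy
      exact IntermediateField.mem_adjoin_simple_self kb _
  exact h2 h1

variable [FiniteDimensional k1⟮x1⟯ ↥F1]

/-- **every element of the compositum is a `kb(x̄)`-combination of the images of a basis of
`F1 / k1(x1)`.** -/
theorem s35bs_comp_le_span :
    ∀ y ∈ s35bs_comp j F1, y ∈ Submodule.span ↥(kb⟮coeffMap j (x1 : LaurentSeries k1)⟯)
      (Set.range fun i : Fin (Module.finrank k1⟮x1⟯ ↥F1) =>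
        coeffMap j ((Module.finBasis k1⟮x1⟯ ↥F1 i : ↥F1) : LaurentSeries k1)) := by
  classical
  set K0 : IntermediateField kb (LaurentSeries kb) :=
    kb⟮coeffMap j (x1 : LaurentSeries k1)⟯ with hK0
  set b := Module.finBasis k1⟮x1⟯ ↥F1 with hb
  set G : Fin (Module.finrank k1⟮x1⟯ ↥F1) → LaurentSeries kb := fun i =>
    coeffMap j ((b i : ↥F1) : LaurentSeries k1) with hG
  set S : Submodule ↥K0 (LaurentSeries kb) := Submodule.span ↥K0 (Set.range G) with hS
  -- the image of `F1` lies in `S`
  have hιS : ∀ f : ↥F1, coeffMap j (f : LaurentSeries k1) ∈ S := by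
    intro f
    have hf : f = ∑ i, b.repr f i • b i := (b.sum_repr f).symm
    have hf' : (f : LaurentSeries k1) =
        ∑ i, ((b.repr f i : ↥F1) : LaurentSeries k1) * ((b i : ↥F1) : LaurentSeries k1) := by
      conv_lhs => rw [hf]
      rw [← F1.val_mk (∑ i, b.repr f i • b i).2, map_sum]
      refine Finset.sum_congr rfl fun i _ => ?_
      rw [IntermediateField.smul_def, smul_eq_mul, map_mul]
      rfl
    rw [hf', map_sum]
    refine Submodule.sum_mem _ fun i _ => ?_
    rw [map_mul]
    have hmem : coeffMap j ((b.repr f i : ↥F1) : LaurentSeries k1) ∈ K0 :=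
      s35bs_map_mem_adjoin_simple j F1 x1 (b.repr f i).2
    have : coeffMap j ((b.repr f i : ↥F1) : LaurentSeries k1) * G i =
        (⟨_, hmem⟩ : ↥K0) • G i := by
      rw [IntermediateField.smul_def, smul_eq_mul]
    rw [show coeffMap j ((b i : ↥F1) : LaurentSeries k1) = G i from rfl, this]
    exact Submodule.smul_mem _ _ (Submodule.subset_span ⟨i, rfl⟩)
  -- `S` is closed under multiplication
  have hmul : ∀ x y : LaurentSeries kb, x ∈ S → y ∈ S → x * y ∈ S := by
    intro x y hx hy
    induction hx, hy using Submodule.span_induction₂ with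
    | mem_mem x y hx hy =>
      obtain ⟨i, rfl⟩ := hx
      obtain ⟨i', rfl⟩ := hy
      have := hιS (b i * b i')
      rwa [MulMemClass.coe_mul, map_mul] at this
    | zero_left y _ => rw [zero_mul]; exact S.zero_mem
    | zero_right x _ => rw [mul_zero]; exact S.zero_mem
    | add_left x y z _ _ _ hx hy => rw [add_mul]; exact S.add_mem hx hy
    | add_right x y z _ _ _ hx hy => rw [mul_add]; exact S.add_mem hx hy
    | smul_left r x y _ _ h => rw [smul_mul_assoc]; exact S.smul_mem r h
    | smul_right r x y _ _ h => rw [mul_smul_comm]; exact S.smul_mem r h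
  have hone : (1 : LaurentSeries kb) ∈ S := by
    have := hιS 1
    rwa [OneMemClass.coe_one, map_one] at this
  -- the subalgebra `S`, a field
  set A : Subalgebra ↥K0 (LaurentSeries kb) := S.toSubalgebra hone hmul with hA
  haveI : Module.Finite ↥K0 ↥S := FiniteDimensional.span_of_finite ↥K0 (Set.finite_range G)
  haveI : Module.Finite ↥K0 ↥A := this
  haveI : Algebra.IsIntegral ↥K0 ↥A := Algebra.IsIntegral.of_finite ↥K0 ↥A
  have hfield : IsField ↥A := isField_of_isIntegral_of_isField' (Field.toIsField ↥K0)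
  set T : IntermediateField ↥K0 (LaurentSeries kb) := Subalgebra.toIntermediateField' A hfield
    with hT
  have hle : s35bs_comp j F1 ≤ T.restrictScalars kb := by
    rw [s35bs_comp, IntermediateField.adjoin_le_iff]
    rintro _ ⟨f, hf, rfl⟩
    exact hιS ⟨f, hf⟩
  intro y hy
  exact hle hy

omit [FiniteDimensional k1⟮x1⟯ ↥F1] in
/-- **bridge**: the degree of an intermediate field `Fb ⊆ kb((X))` over `kb(xb)`, computed inside
`Fb`, is the relative rank inside `kb((X))`. -/
theorem s35bs_relrank_eq (Fb : IntermediateField kb (LaurentSeries kb)) (xb : ↥Fb) :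
    IntermediateField.relrank kb⟮(xb : LaurentSeries kb)⟯ Fb = Module.rank kb⟮xb⟯ ↥Fb := by
  have h1 := IntermediateField.relrank_map_map (kb⟮xb⟯) (⊤ : IntermediateField kb ↥Fb) Fb.val
  rw [IntermediateField.relrank_top_right, IntermediateField.adjoin_map, Set.image_singleton,
    ← AlgHom.fieldRange_eq_map, IntermediateField.fieldRange_val] at h1
  exact h1

/-- the element `x̄ = coeffMap j x1` of the compositum. -/
def s35bs_xb : ↥(s35bs_comp j F1) :=
  ⟨coeffMap j (x1 : LaurentSeries k1), s35bs_map_mem_comp j F1 x1.2⟩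

omit [FiniteDimensional k1⟮x1⟯ ↥F1] in
@[simp] theorem s35bs_xb_coe :
    ((s35bs_xb j F1 x1 : ↥(s35bs_comp j F1)) : LaurentSeries kb) =
      coeffMap j (x1 : LaurentSeries k1) := rfl

/-- **`[F̄ : kb(x̄)] ≤ [F1 : k1(x1)]`** (cardinal form). -/
theorem s35bs_comp_rank_le :
    Module.rank kb⟮s35bs_xb j F1 x1⟯ ↥(s35bs_comp j F1) ≤
      (Module.finrank k1⟮x1⟯ ↥F1 : Cardinal) := by
  rw [← s35bs_relrank_eq, s35bs_xb_coe]
  have hle : kb⟮coeffMap j (x1 : LaurentSeries k1)⟯ ≤ s35bs_comp j F1 := by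
    rw [IntermediateField.adjoin_le_iff, Set.singleton_subset_iff]
    exact s35bs_map_mem_comp j F1 x1.2
  rw [IntermediateField.relrank_eq_rank_of_le hle]
  have hsub : Subalgebra.toSubmodule (IntermediateField.extendScalars hle).toSubalgebra ≤
      Submodule.span ↥(kb⟮coeffMap j (x1 : LaurentSeries k1)⟯)
      (Set.range fun i : Fin (Module.finrank k1⟮x1⟯ ↥F1) =>
        coeffMap j ((Module.finBasis k1⟮x1⟯ ↥F1 i : ↥F1) : LaurentSeries k1)) :=
    fun y hy => s35bs_comp_le_span j F1 x1 y hy
  classical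
  refine le_trans (Submodule.rank_mono hsub) ?_
  have hrange : (Set.range fun i : Fin (Module.finrank k1⟮x1⟯ ↥F1) =>
      coeffMap j ((Module.finBasis k1⟮x1⟯ ↥F1 i : ↥F1) : LaurentSeries k1)) =
      ↑(Finset.univ.image fun i : Fin (Module.finrank k1⟮x1⟯ ↥F1) =>
        coeffMap j ((Module.finBasis k1⟮x1⟯ ↥F1 i : ↥F1) : LaurentSeries k1)) := by
    rw [Finset.coe_image, Finset.coe_univ, Set.image_univ]
  rw [hrange]
  refine le_trans (rank_span_finset_le _) ?_
  have := Finset.card_image_le (s := (Finset.univ : Finset (Fin (Module.finrank k1⟮x1⟯ ↥F1))))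
    (f := fun i : Fin (Module.finrank k1⟮x1⟯ ↥F1) =>
        coeffMap j ((Module.finBasis k1⟮x1⟯ ↥F1 i : ↥F1) : LaurentSeries k1))
  rw [Finset.card_univ, Fintype.card_fin] at this
  exact_mod_cast this

/-- **`[F̄ : kb(x̄)] < ∞`.** -/
theorem s35bs_comp_finiteDimensional :
    FiniteDimensional kb⟮s35bs_xb j F1 x1⟯ ↥(s35bs_comp j F1) := by
  rw [FiniteDimensional, ← Module.rank_lt_aleph0_iff]
  exact lt_of_le_of_lt (s35bs_comp_rank_le j F1 x1) (Cardinal.natCast_lt_aleph0)

/-- **`[F̄ : kb(x̄)] ≤ [F1 : k1(x1)]`.** -/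
theorem s35bs_comp_finrank_le :
    Module.finrank kb⟮s35bs_xb j F1 x1⟯ ↥(s35bs_comp j F1) ≤ Module.finrank k1⟮x1⟯ ↥F1 :=
  Module.finrank_le_of_rank_le (s35bs_comp_rank_le j F1 x1)

end Degree

end Comp

end Fermat.Agent.S35
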