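/-
Project S35, cell [ABEL-SS] / [RD-k] (helper13), part (b): ROOT DESCENT ALONG A CONSTANT FIELD
EXTENSION, BY INDUCTION ON THE COEFFICIENTS (no Galois theory, no Hensel).  Prefix `s35bs_`.

`j : k1 → kb` fields, `m` invertible in `kb`.

* `s35bs_ps_coeff_mem_range` : `P ∈ kb[[X]]` with constant coefficient `1` and `P ^ m = map j W`
                               (`W ∈ k1[[X]]`) has all its coefficients in the range of `j`;
* `s35bs_ps_root`            : then `P = map j S`, `S ^ m = W`;
* `s35bs_root`               : `r ∈ kb((X))`, `r ≠ 0`, `r ^ m = C a · coeffMap j w` (`w ∈ k1((X))`)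
                               ⟹ `r = C b · coeffMap j ρ`, `w = C k · ρ ^ m` with `ρ ∈ k1((X))`,
                               `b ∈ kbˣ`, `k ∈ k1ˣ`.
-/
import Mathlib
import Fermat.Prelude.Def_ModularCurve_LaurentCoeff
import Fermat.Prelude.Def_ModularCurve_X0ModL

set_option autoImplicit false
set_option linter.unusedSectionVars false
set_option linter.unusedVariables false

noncomputable section

namespace Fermat.Agent.S35

open ModularCurve

section Root

variable {k1 kb : Type*} [Field k1] [Field kb] (j : k1 →+* kb)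

/-- **the coefficients of a normalised `m`-th root of a series over `k1` lie in `k1`.** -/
theorem s35bs_ps_coeff_mem_range {m : ℕ} (hm : (m : kb) ≠ 0) (P : PowerSeries kb)
    (hP0 : PowerSeries.constantCoeff P = 1) (W : PowerSeries k1)
    (hPW : P ^ m = W.map j) : ∀ n : ℕ, ∃ c : k1, j c = PowerSeries.coeff n P := by
  classical
  intro n
  induction n using Nat.strong_induction_on with
  | _ n ih =>
    rcases Nat.eq_zero_or_pos n with rfl | hn
    · exact ⟨1, by rw [map_one, PowerSeries.coeff_zero_eq_constantCoeff_apply, hP0]⟩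
    choose! cf hcf using ih
    -- the part already known
    set A1 : PowerSeries k1 := PowerSeries.mk fun i => if i < n then cf i else 0 with hA1
    set A : PowerSeries kb := A1.map j with hA
    have hAcoeff : ∀ i, i < n → PowerSeries.coeff i A = PowerSeries.coeff i P := by
      intro i hi
      rw [hA, PowerSeries.coeff_map, hA1, PowerSeries.coeff_mk, if_pos hi, hcf i hi]
    have hAn : PowerSeries.coeff n A = 0 := by
      rw [hA, PowerSeries.coeff_map, hA1, PowerSeries.coeff_mk, if_neg (lt_irrefl n), map_zero]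
    have hA0 : PowerSeries.constantCoeff A = 1 := by
      rw [← PowerSeries.coeff_zero_eq_constantCoeff_apply, hAcoeff 0 hn,
        PowerSeries.coeff_zero_eq_constantCoeff_apply, hP0]
    -- `P - A = X ^ n * Q`
    obtain ⟨Q, hQ⟩ : (PowerSeries.X : PowerSeries kb) ^ n ∣ P - A := by
      rw [PowerSeries.X_pow_dvd_iff]
      intro i hi
      rw [map_sub, hAcoeff i hi, sub_self]
    have hQ0 : PowerSeries.constantCoeff Q = PowerSeries.coeff n P := by
      have h1 := congrArg (PowerSeries.coeff n) hQ
      have h2 := PowerSeries.coeff_X_pow_mul Q n 0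
      rw [zero_add] at h2
      rw [h2, map_sub, hAn, sub_zero, PowerSeries.coeff_zero_eq_constantCoeff_apply] at h1
      exact h1.symm
    -- the geometric sum
    set S : PowerSeries kb := ∑ i ∈ Finset.range m, P ^ i * A ^ (m - 1 - i) with hS
    have hS0 : PowerSeries.constantCoeff S = (m : kb) := by
      rw [hS, map_sum]
      simp only [map_mul, map_pow, hP0, hA0, one_pow, mul_one]
      rw [Finset.sum_const, Finset.card_range, nsmul_eq_mul, mul_one]
    have hgeom : P ^ m - A ^ m = (PowerSeries.X : PowerSeries kb) ^ n * (Q * S) := by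
      rw [← geom_sum₂_mul P A m, hQ]
      ring
    have hcoeff : PowerSeries.coeff n (P ^ m) - PowerSeries.coeff n (A ^ m) =
        PowerSeries.coeff n P * (m : kb) := by
      have h1 := congrArg (PowerSeries.coeff n) hgeom
      have h2 := PowerSeries.coeff_X_pow_mul (Q * S) n 0
      rw [zero_add] at h2
      rw [h2, map_sub, PowerSeries.coeff_zero_eq_constantCoeff_apply, map_mul, hQ0, hS0] at h1
      exact h1
    have hm1 : (m : k1) ≠ 0 := by
      intro h0
      apply hm
      have := congrArg j h0
      rwa [map_natCast, map_zero] at this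
    refine ⟨(PowerSeries.coeff n W - PowerSeries.coeff n (A1 ^ m)) / (m : k1), ?_⟩
    have hApow : PowerSeries.map j (A1 ^ m) = A ^ m := by rw [hA, map_pow]
    rw [map_div₀, map_sub, map_natCast, ← PowerSeries.coeff_map, ← PowerSeries.coeff_map, ← hPW,
      hApow, hcoeff, mul_div_assoc, div_self hm, mul_one]

/-- **a normalised `m`-th root of a series over `k1` is defined over `k1`.** -/
theorem s35bs_ps_root {m : ℕ} (hm : (m : kb) ≠ 0) (P : PowerSeries kb)
    (hP0 : PowerSeries.constantCoeff P = 1) (W : PowerSeries k1)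
    (hPW : P ^ m = W.map j) : ∃ S : PowerSeries k1, S.map j = P ∧ S ^ m = W := by
  choose cf hcf using s35bs_ps_coeff_mem_range j hm P hP0 W hPW
  refine ⟨PowerSeries.mk cf, ?_, ?_⟩
  · ext n
    rw [PowerSeries.coeff_map, PowerSeries.coeff_mk, hcf]
  · apply PowerSeries.map_injective j j.injective
    rw [map_pow, ← hPW]
    congr 1
    ext n
    rw [PowerSeries.coeff_map, PowerSeries.coeff_mk, hcf]

/-- **root descent for Laurent series**: if `r ^ m = C a · coeffMap j w` with `r ≠ 0` over `kb`
and `w` over `k1`, then `r` is a constant multiple of a series over `k1`, an `m`-th root of `w` up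
to a constant of `k1`. -/
theorem s35bs_root {m : ℕ} (hm : (m : kb) ≠ 0) {w : LaurentSeries k1} {r : LaurentSeries kb}
    (hr : r ≠ 0) {a : kb}
    (h : r ^ m = algebraMap kb (LaurentSeries kb) a * coeffMap j w) :
    ∃ (b : kb) (ρ : LaurentSeries k1) (k : k1), b ≠ 0 ∧ k ≠ 0 ∧
      r = algebraMap kb (LaurentSeries kb) b * coeffMap j ρ ∧
      w = algebraMap k1 (LaurentSeries k1) k * ρ ^ m := by
  classical
  set n0 : ℤ := r.order with hn0
  set b : kb := r.coeff r.order with hb
  have hb0 : b ≠ 0 := fun h0 => hr (HahnSeries.coeff_order_eq_zero.mp h0)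
  set P0 : PowerSeries kb := LaurentSeries.powerSeriesPart r with hP0
  have hrP0 : (HahnSeries.single n0 (1 : kb)) * HahnSeries.ofPowerSeries ℤ kb P0 = r :=
    LaurentSeries.single_order_mul_powerSeriesPart r
  have hP00 : PowerSeries.constantCoeff P0 = b := by
    rw [← PowerSeries.coeff_zero_eq_constantCoeff_apply, hP0, LaurentSeries.powerSeriesPart_coeff]
    simp [hb]
  set P : PowerSeries kb := PowerSeries.C b⁻¹ * P0 with hP
  have hPc : PowerSeries.constantCoeff P = 1 := by
    rw [hP, map_mul, PowerSeries.constantCoeff_C, hP00, inv_mul_cancel₀ hb0]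
  have hP0P : P0 = PowerSeries.C b * P := by
    rw [hP, ← mul_assoc, ← map_mul, mul_inv_cancel₀ hb0, map_one, one_mul]
  have hCb : HahnSeries.ofPowerSeries ℤ kb (PowerSeries.C b) =
      algebraMap kb (LaurentSeries kb) b := by
    rw [HahnSeries.ofPowerSeries_C, algebraMap_laurentSeries_eq_single]
    rfl
  -- `r = C b * (X ^ n0 * P)`
  have hrP : r = algebraMap kb (LaurentSeries kb) b *
      (HahnSeries.single n0 (1 : kb) * HahnSeries.ofPowerSeries ℤ kb P) := by
    rw [← hCb]
    conv_lhs => rw [← hrP0, hP0P, map_mul]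
    ring
  -- the `m`-th power
  set T : LaurentSeries kb := HahnSeries.single (m • n0) (1 : kb) with hT
  set T' : LaurentSeries kb := HahnSeries.single (-(m • n0)) (1 : kb) with hT'
  have hTT' : T' * T = 1 := by
    rw [hT, hT', HahnSeries.single_mul_single, neg_add_cancel, mul_one]
    rfl
  have hpowT : (HahnSeries.single n0 (1 : kb) : LaurentSeries kb) ^ m = T := by
    rw [HahnSeries.single_pow, one_pow]
  have hrm : r ^ m = algebraMap kb (LaurentSeries kb) (b ^ m) *
      (T * HahnSeries.ofPowerSeries ℤ kb (P ^ m)) := by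
    rw [hrP, mul_pow, mul_pow, hpowT, map_pow, map_pow]
  -- `w' = X ^ (-m n0) * w`
  set w' : LaurentSeries k1 := HahnSeries.single (-(m • n0)) (1 : k1) * w with hw'
  have hjw' : coeffMap j w' = T' * coeffMap j w := by
    rw [hw', map_mul, coeffMap_single, map_one]
  set a' : kb := (b ^ m)⁻¹ * a with ha'
  have hbm : b ^ m ≠ 0 := pow_ne_zero m hb0
  have hPm : HahnSeries.ofPowerSeries ℤ kb (P ^ m) =
      algebraMap kb (LaurentSeries kb) a' * coeffMap j w' := by
    have h1 : algebraMap kb (LaurentSeries kb) ((b ^ m)⁻¹) * T' * r ^ m =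
        HahnSeries.ofPowerSeries ℤ kb (P ^ m) := by
      rw [hrm]
      calc algebraMap kb (LaurentSeries kb) ((b ^ m)⁻¹) * T' *
            (algebraMap kb (LaurentSeries kb) (b ^ m) *
              (T * HahnSeries.ofPowerSeries ℤ kb (P ^ m)))
          = (algebraMap kb (LaurentSeries kb) ((b ^ m)⁻¹) *
              algebraMap kb (LaurentSeries kb) (b ^ m)) * (T' * T) *
              HahnSeries.ofPowerSeries ℤ kb (P ^ m) := by ring
        _ = HahnSeries.ofPowerSeries ℤ kb (P ^ m) := by
          rw [← map_mul, inv_mul_cancel₀ hbm, map_one, hTT', one_mul, one_mul]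
    rw [← h1, h, hjw', ha', map_mul]
    ring
  -- constant coefficients
  have hcoeffP : ∀ n : ℕ, PowerSeries.coeff n (P ^ m) = a' * j (w'.coeff n) := by
    intro n
    rw [← HahnSeries.ofPowerSeries_apply_coeff (Γ := ℤ), hPm, algebraMap_laurentSeries_eq_single,
      HahnSeries.coeff_single_zero_mul, coeffMap_coeff]
  have hnegP : ∀ n : ℤ, n < 0 → a' * j (w'.coeff n) = 0 := by
    intro n hn
    have h1 : (HahnSeries.ofPowerSeries ℤ kb (P ^ m)).coeff n = 0 :=
      ModularCurve.ofPowerSeries_coeff_of_neg _ hn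
    rw [hPm, algebraMap_laurentSeries_eq_single, HahnSeries.coeff_single_zero_mul,
      coeffMap_coeff] at h1
    exact h1
  set k0 : k1 := w'.coeff 0 with hk0
  have h10 : a' * j k0 = 1 := by
    have := hcoeffP 0
    rw [PowerSeries.coeff_zero_eq_constantCoeff_apply, map_pow, hPc, one_pow] at this
    rw [hk0]
    exact_mod_cast this.symm
  have ha'0 : a' ≠ 0 := left_ne_zero_of_mul_eq_one h10
  have hjk0 : j k0 ≠ 0 := right_ne_zero_of_mul_eq_one h10
  have hk00 : k0 ≠ 0 := fun h0 => hjk0 (by rw [h0, map_zero])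
  have ha'eq : a' = j k0⁻¹ := by
    rw [map_inv₀]
    exact eq_inv_of_mul_eq_one_left h10
  -- the power series `W`
  set W : PowerSeries k1 := PowerSeries.mk fun n => k0⁻¹ * w'.coeff (n : ℤ) with hW
  have hPW : P ^ m = W.map j := by
    ext n
    rw [hcoeffP n, PowerSeries.coeff_map, hW, PowerSeries.coeff_mk, map_mul, ha'eq]
  obtain ⟨S, hSP, hSW⟩ := s35bs_ps_root j hm P hPc W hPW
  -- `ofPS W = C k0⁻¹ * w'`
  have hWw' : HahnSeries.ofPowerSeries ℤ k1 W =
      algebraMap k1 (LaurentSeries k1) k0⁻¹ * w' := by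
    ext n
    rw [algebraMap_laurentSeries_eq_single, HahnSeries.coeff_single_zero_mul]
    rcases le_or_gt 0 n with hn | hn
    · lift n to ℕ using hn
      rw [HahnSeries.ofPowerSeries_apply_coeff, hW, PowerSeries.coeff_mk]
    · rw [ModularCurve.ofPowerSeries_coeff_of_neg _ hn]
      have h1 := hnegP n hn
      rcases mul_eq_zero.mp h1 with h2 | h2
      · exact absurd h2 ha'0
      · rw [(map_eq_zero j).mp h2, mul_zero]
  set ρ : LaurentSeries k1 := HahnSeries.single n0 (1 : k1) * HahnSeries.ofPowerSeries ℤ k1 S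
    with hρ
  refine ⟨b, ρ, k0, hb0, hk00, ?_, ?_⟩
  · rw [hρ, map_mul, coeffMap_single, map_one, coeffMap_ofPowerSeries, hSP]
    exact hrP
  · have hT1 : (HahnSeries.single n0 (1 : k1) : LaurentSeries k1) ^ m =
        HahnSeries.single (m • n0) (1 : k1) := by
      rw [HahnSeries.single_pow, one_pow]
    have hTT1 : (HahnSeries.single (m • n0) (1 : k1) : LaurentSeries k1) *
        HahnSeries.single (-(m • n0)) (1 : k1) = 1 := by
      rw [HahnSeries.single_mul_single, add_neg_cancel, mul_one]
      rfl
    rw [hρ, mul_pow, hT1, ← map_pow, hSW, hWw', hw']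
    calc w = (algebraMap k1 (LaurentSeries k1) k0 * algebraMap k1 (LaurentSeries k1) k0⁻¹) *
          ((HahnSeries.single (m • n0) (1 : k1) : LaurentSeries k1) *
            HahnSeries.single (-(m • n0)) (1 : k1)) * w := by
          rw [← map_mul, mul_inv_cancel₀ hk00, map_one, hTT1, one_mul, one_mul]
      _ = _ := by ring

end Root

end Fermat.Agent.S35
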