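/-
Project S35, cell [ABEL-SS] (helper13): [ABEL] OVER A SMALL CONSTANT FIELD, WITH AN EXPONENT WHICH
DEPENDS ONLY ON THE FUNCTION FIELD OVER THE ALGEBRAIC CLOSURE.  Prefix `s35bs_`.

`kb` algebraically closed of characteristic `q`, `F̄ ⊆ kb((X))` a function field stable under the
coefficientwise Frobenius, `x̄ ∈ F̄` Frobenius-fixed of `X`-order prime to `q`, `[F̄ : kb(x̄)] < ∞`.
There is `E ≥ 1` such that for EVERY field `k1` with `j : k1 → kb`, every `F1 ⊆ k1((X))` with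
`coeffMap j '' F1 ⊆ F̄ ⊆ kb(coeffMap j '' F1)`, every `m` prime to `q` and all `u₁, u₂ ∈ F1ˣ` with all
orders (over `kb`) divisible by `m` and

  (R1) `u₁ · Fr u₂ = c · h ^ m`,   (R2) `Fr u₁ · u₂ = c' · h' ^ m`   (`c, c' ∈ k1`, `h, h' ∈ F1`):

  `u_i ^ E = a_i · w_i ^ m`  with `a_i ∈ k1ˣ`, `w_i ∈ F1ˣ`.

Proof: `s35b_abel_laurent` over `kb`, then root descent (`s35bs_root`, `s35bs_mem_of_map_mem_adjoin`).
-/
import Mathlib
import Fermat.Agent.S35.AbelSS.Lin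
import Fermat.Agent.S35.AbelSS.Root
import Fermat.Agent.S35.Kappa.Frob

set_option autoImplicit false
set_option linter.unusedSectionVars false
set_option linter.unusedVariables false
set_option linter.style.haveILetI false

noncomputable section

namespace Fermat.Agent.S35

open ModularCurve IsLocalRing Polynomial IntermediateField AlgebraicCurve Fermat.Agent.JT3

universe u

section Descend

variable {k1 kb : Type*} [Field k1] [Field kb] (j : k1 →+* kb)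
  (F1 : IntermediateField k1 (LaurentSeries k1)) (Fb : IntermediateField kb (LaurentSeries kb))
  (hFb : Fb ≤ IntermediateField.adjoin kb (coeffMap j '' (F1 : Set (LaurentSeries k1))))

theorem s35bs_coeffMap_algebraMap (c : k1) :
    coeffMap j (algebraMap k1 (LaurentSeries k1) c) = algebraMap kb (LaurentSeries kb) (j c) := by
  rw [algebraMap_laurentSeries_eq_single, algebraMap_laurentSeries_eq_single, coeffMap_single]

theorem s35bs_coeffMap_injective : Function.Injective (coeffMap j) :=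
  (coeffMap j).injective

include hFb in
/-- descent of ONE relation `ū ^ E = a · W ^ m` from `F̄` to `F1`. -/
theorem s35bs_descend_one {m : ℕ} (hm : (m : kb) ≠ 0) {u : LaurentSeries k1} (hu : u ≠ 0) {E : ℕ}
    {a : kb} {W : LaurentSeries kb} (hW : W ∈ Fb) (ha : a ≠ 0) (hW0 : W ≠ 0)
    (h : coeffMap j u ^ E = algebraMap kb (LaurentSeries kb) a * W ^ m) :
    ∃ (a1 : k1) (w1 : LaurentSeries k1), a1 ≠ 0 ∧ w1 ∈ F1 ∧ w1 ≠ 0 ∧
      u ^ E = algebraMap k1 (LaurentSeries k1) a1 * w1 ^ m := by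
  have hCa : algebraMap kb (LaurentSeries kb) a ≠ 0 := by
    rw [Ne, map_eq_zero]; exact ha
  have h1 : W ^ m = algebraMap kb (LaurentSeries kb) a⁻¹ * coeffMap j (u ^ E) := by
    rw [map_pow, h, map_inv₀, ← mul_assoc, inv_mul_cancel₀ hCa, one_mul]
  obtain ⟨b, ρ, k, hb0, hk0, hWρ, huρ⟩ := s35bs_root j hm hW0 h1
  have hCb : algebraMap kb (LaurentSeries kb) b ≠ 0 := by
    rw [Ne, map_eq_zero]; exact hb0
  have hρmem : coeffMap j ρ ∈ Fb := by
    have : coeffMap j ρ = algebraMap kb (LaurentSeries kb) b⁻¹ * W := by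
      rw [hWρ, map_inv₀, ← mul_assoc, inv_mul_cancel₀ hCb, one_mul]
    rw [this]
    exact Fb.mul_mem (Fb.algebraMap_mem _) hW
  letI : Algebra k1 kb := j.toAlgebra
  have hρF1 : ρ ∈ F1 := s35bs_mem_of_map_mem_adjoin F1 (hFb hρmem)
  refine ⟨k, ρ, hk0, hρF1, ?_, huρ⟩
  rintro rfl
  rw [map_zero, mul_zero] at hWρ
  exact hW0 hWρ

end Descend

section Main

variable {q : ℕ} [hq : Fact q.Prime] [NeZero q] {kb : Type*} [Field kb] [IsAlgClosed kb]
  [CharP kb q]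
  (Fb : IntermediateField kb (LaurentSeries kb))
  (hFr : ∀ y ∈ Fb, coeffMap (frobenius kb q) y ∈ Fb)
  (hFr' : ∀ y ∈ Fb, coeffMap ((frobeniusEquiv kb q).symm : kb →+* kb) y ∈ Fb)
  (xb : ↥Fb) (hFq : coeffMap (frobenius kb q) (xb : LaurentSeries kb) = xb)
  (hord : ¬ (q : ℤ) ∣ (xb : LaurentSeries kb).order) [FiniteDimensional kb⟮xb⟯ ↥Fb]

include hFr hFr' hFq hord in
/-- **[ABEL-SS].** -/
theorem s35bs_abel :
    ∃ E : ℕ, 1 ≤ E ∧ ∀ {k1 : Type u} [Field k1] [CharP k1 q] (j : k1 →+* kb)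
      (F1 : IntermediateField k1 (LaurentSeries k1))
      (hF1 : ∀ y ∈ F1, coeffMap j y ∈ Fb)
      (hFb : Fb ≤ IntermediateField.adjoin kb (coeffMap j '' (F1 : Set (LaurentSeries k1))))
      (m : ℕ) (hm : ¬ q ∣ m) (u₁ u₂ h h' : LaurentSeries k1) (hu₁ : u₁ ∈ F1) (hu₂ : u₂ ∈ F1)
      (c c' : k1), h ∈ F1 → h' ∈ F1 → u₁ ≠ 0 → u₂ ≠ 0 →
      (∀ v : Place kb ↥Fb, (m : ℤ) ∣ v.ord (⟨coeffMap j u₁, hF1 _ hu₁⟩ : ↥Fb)) →
      (∀ v : Place kb ↥Fb, (m : ℤ) ∣ v.ord (⟨coeffMap j u₂, hF1 _ hu₂⟩ : ↥Fb)) →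
      u₁ * coeffMap (frobenius k1 q) u₂ = algebraMap k1 (LaurentSeries k1) c * h ^ m →
      coeffMap (frobenius k1 q) u₁ * u₂ = algebraMap k1 (LaurentSeries k1) c' * h' ^ m →
      (∃ (a : k1) (w : LaurentSeries k1), a ≠ 0 ∧ w ∈ F1 ∧ w ≠ 0 ∧
          u₁ ^ E = algebraMap k1 (LaurentSeries k1) a * w ^ m) ∧
        ∃ (a : k1) (w : LaurentSeries k1), a ≠ 0 ∧ w ∈ F1 ∧ w ≠ 0 ∧
          u₂ ^ E = algebraMap k1 (LaurentSeries k1) a * w ^ m := by
  -- the Frobenius of `F̄`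
  set g : SemilinearAut kb ↥Fb := s35kp_coeffAut Fb (frobeniusEquiv kb q)
    (fun y hy => hFr y hy) hFr' with hg
  have hgcoe : ∀ y : ↥Fb, ((g • y : ↥Fb) : LaurentSeries kb) =
      coeffMap (frobenius kb q) (y : LaurentSeries kb) := fun y => rfl
  have hK : ∀ c : kb, SemilinearAut.baseAut g c = c ^ q := by
    intro c
    show frobeniusEquiv kb q c = c ^ q
    rw [frobeniusEquiv_apply, frobenius_def]
  have hgx : g • xb = xb := Subtype.ext (by rw [hgcoe]; exact hFq)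
  obtain ⟨E, hE1, hE⟩ := s35b_abel_laurent q Fb.val (x := xb) hord g q hq.out.two_le hK hgx
  refine ⟨E, hE1, ?_⟩
  intro k1 _ _ j F1 hF1 hFb m hm u₁ u₂ h h' hu₁ hu₂ c c' hh hh' hu₁0 hu₂0 hdv₁ hdv₂ hR1 hR2
  have hm1 : 1 ≤ m := by
    rcases Nat.eq_zero_or_pos m with rfl | h0
    · exact absurd (dvd_zero q) hm
    · exact h0
  have hmkb : (m : kb) ≠ 0 := by
    rw [Ne, CharP.cast_eq_zero_iff kb q]
    exact hm
  -- Frobenius commutes with `coeffMap j`
  have hcomm : ∀ y : LaurentSeries k1, coeffMap j (coeffMap (frobenius k1 q) y) =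
      coeffMap (frobenius kb q) (coeffMap j y) := by
    intro y
    rw [coeffMap_coeffMap, coeffMap_coeffMap]
    refine coeffMap_congr (RingHom.ext fun a => ?_) y
    show j (frobenius k1 q a) = frobenius kb q (j a)
    rw [frobenius_def, frobenius_def, map_pow]
  have hinj := s35bs_coeffMap_injective j
  set U₁ : ↥Fb := ⟨coeffMap j u₁, hF1 _ hu₁⟩ with hU₁
  set U₂ : ↥Fb := ⟨coeffMap j u₂, hF1 _ hu₂⟩ with hU₂
  set H : ↥Fb := ⟨coeffMap j h, hF1 _ hh⟩ with hH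
  set H' : ↥Fb := ⟨coeffMap j h', hF1 _ hh'⟩ with hH'
  have hU₁0 : U₁ ≠ 0 := by
    intro h0
    have h1 : coeffMap j u₁ = 0 := congrArg (fun z : ↥Fb => (z : LaurentSeries kb)) h0
    exact hu₁0 (hinj (by rw [h1, map_zero]))
  have hU₂0 : U₂ ≠ 0 := by
    intro h0
    have h1 : coeffMap j u₂ = 0 := congrArg (fun z : ↥Fb => (z : LaurentSeries kb)) h0
    exact hu₂0 (hinj (by rw [h1, map_zero]))
  have hR1' : U₁ * (g • U₂) = (j c) • H ^ m := by
    rw [Algebra.smul_def]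
    apply Subtype.ext
    show coeffMap j u₁ * coeffMap (frobenius kb q) (coeffMap j u₂) =
      algebraMap kb (LaurentSeries kb) (j c) * coeffMap j h ^ m
    rw [← hcomm, ← map_mul, hR1, map_mul, map_pow, s35bs_coeffMap_algebraMap]
  have hR2' : (g • U₁) * U₂ = (j c') • H' ^ m := by
    rw [Algebra.smul_def]
    apply Subtype.ext
    show coeffMap (frobenius kb q) (coeffMap j u₁) * coeffMap j u₂ =
      algebraMap kb (LaurentSeries kb) (j c') * coeffMap j h' ^ m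
    rw [← hcomm, ← map_mul, hR2, map_mul, map_pow, s35bs_coeffMap_algebraMap]
  obtain ⟨⟨a₁, W₁, ha₁, hW₁, he₁⟩, ⟨a₂, W₂, ha₂, hW₂, he₂⟩⟩ :=
    hE m hm1 U₁ U₂ H H' (j c) (j c') hU₁0 hU₂0 hdv₁ hdv₂ hR1' hR2'
  have hcoe : ∀ (U W : ↥Fb) (a : kb), U ^ E = a • W ^ m →
      (U : LaurentSeries kb) ^ E = algebraMap kb (LaurentSeries kb) a *
        (W : LaurentSeries kb) ^ m := by
    intro U W a he
    rw [Algebra.smul_def] at he
    have := congrArg (fun z : ↥Fb => (z : LaurentSeries kb)) he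
    simpa using this
  have hW0 : ∀ W : ↥Fb, W ≠ 0 → (W : LaurentSeries kb) ≠ 0 := by
    intro W hW h0
    exact hW (Subtype.ext h0)
  exact ⟨s35bs_descend_one j F1 Fb hFb hmkb hu₁0 W₁.2 ha₁ (hW0 W₁ hW₁) (hcoe U₁ W₁ a₁ he₁),
    s35bs_descend_one j F1 Fb hFb hmkb hu₂0 W₂.2 ha₂ (hW0 W₂ hW₂) (hcoe U₂ W₂ a₂ he₂)⟩

end Main

end Fermat.Agent.S35
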