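/-
Project S35, cell [ABEL-SS] (helper13): THE ORDERS OVER THE ALGEBRAIC CLOSURE FROM FACTORISATIONS OVER
THE SMALL CONSTANT FIELD.  Prefix `s35bs_`.

`j : k1 → kb`, `kb` algebraically closed and algebraic over `j(k1)`, `F1 ⊆ k1((X))`, `F̄ ⊆ kb((X))` a
function field over `kb` (`[F̄ : kb(x̄)]` algebraic) with `coeffMap j '' F1 ⊆ F̄`.

* `s35bs_emb`           : the embedding `F1 → F̄`;
* `s35bs_exists_const`  : the residue field of a place of `F̄ / kb` is `kb`;
* `s35bs_ord_of_factor` : if at every valuation ring `𝒪 ⊇ k1` of `F1` with residue field algebraic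
                          over `k1` one has `u = ω · e ^ m` with `ω ∈ 𝒪ˣ`, then `m ∣ ord_v (ū)` for
                          EVERY place `v` of `F̄ / kb` (restrict `v` to `F1`).
-/
import Mathlib
import Fermat.Prelude.Def_ModularCurve_LaurentCoeff
import Fermat.Agent.S24.Hurwitz.Places
import Fermat.Agent.JT3.Riemann.Degree

set_option autoImplicit false
set_option linter.unusedSectionVars false
set_option linter.unusedVariables false
set_option linter.style.haveILetI false

noncomputable section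

namespace Fermat.Agent.S35

open ModularCurve IsLocalRing Polynomial IntermediateField AlgebraicCurve Fermat.Agent.JT3
  Fermat.Agent.S24

section Ord

variable {k1 kb : Type*} [Field k1] [Field kb] (j : k1 →+* kb)
  (F1 : IntermediateField k1 (LaurentSeries k1)) (Fb : IntermediateField kb (LaurentSeries kb))
  (hF1 : ∀ y ∈ F1, coeffMap j y ∈ Fb)

/-- the embedding `F1 → F̄` induced by `coeffMap j`. -/
def s35bs_emb : ↥F1 →+* ↥Fb where
  toFun z := ⟨coeffMap j (z : LaurentSeries k1), hF1 _ z.2⟩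
  map_one' := Subtype.ext (map_one (coeffMap j))
  map_mul' x y := Subtype.ext (map_mul (coeffMap j) _ _)
  map_zero' := Subtype.ext (map_zero (coeffMap j))
  map_add' x y := Subtype.ext (map_add (coeffMap j) _ _)

@[simp] theorem s35bs_emb_coe (z : ↥F1) :
    ((s35bs_emb j F1 Fb hF1 z : ↥Fb) : LaurentSeries kb) = coeffMap j (z : LaurentSeries k1) := rfl

theorem s35bs_emb_algebraMap (c : k1) :
    s35bs_emb j F1 Fb hF1 (algebraMap k1 ↥F1 c) = algebraMap kb ↥Fb (j c) := by
  apply Subtype.ext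
  show coeffMap j (algebraMap k1 (LaurentSeries k1) c) = algebraMap kb (LaurentSeries kb) (j c)
  rw [algebraMap_laurentSeries_eq_single, algebraMap_laurentSeries_eq_single, coeffMap_single]

variable [IsAlgClosed kb]

omit j F1 hF1 in
/-- **the residue field of a place of a function field over an algebraically closed field is the
constant field.** -/
theorem s35bs_exists_const (xb : ↥Fb) [Algebra.IsAlgebraic kb⟮xb⟯ ↥Fb] (v : Place kb ↥Fb)
    {y : ↥Fb} (hy : y ∈ v.toValuationSubring) :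
    ∃ c : kb, y - algebraMap kb ↥Fb c ∈ v.toValuationSubring.nonunits := by
  have halg : IsAlgebraic kb (residue v.toValuationSubring ⟨y, hy⟩) :=
    hw_isAlgebraic_residue xb v ⟨y, hy⟩
  have hdeg : (minpoly kb (residue v.toValuationSubring ⟨y, hy⟩)).degree = 1 :=
    IsAlgClosed.degree_eq_one_of_irreducible kb (minpoly.irreducible halg.isIntegral)
  obtain ⟨c, hc⟩ := minpoly.mem_range_of_degree_eq_one kb _ hdeg
  refine ⟨c, ?_⟩
  have h1 : residue v.toValuationSubring
      (⟨y, hy⟩ - algebraMap kb v.toValuationSubring c) = 0 := by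
    rw [map_sub, ← hc]
    exact sub_eq_zero.mpr rfl
  rw [residue_eq_zero_iff] at h1
  have h2 := (ValuationSubring.mem_nonunits_iff_exists_mem_maximalIdeal).2
    ⟨(⟨y, hy⟩ - algebraMap kb v.toValuationSubring c : v.toValuationSubring).2, h1⟩
  exact h2

omit [IsAlgClosed kb] in
/-- the nonunits of the restriction of a valuation ring of `F̄` to `F1`. -/
theorem s35bs_mem_comap_nonunits (A : ValuationSubring ↥Fb) (w : ↥F1) :
    w ∈ (A.comap (s35bs_emb j F1 Fb hF1)).nonunits ↔ s35bs_emb j F1 Fb hF1 w ∈ A.nonunits := by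
  rw [ValuationSubring.mem_nonunits_iff_or, ValuationSubring.mem_nonunits_iff_or,
    ValuationSubring.mem_comap, map_inv₀, map_eq_zero]

/-- **divisibility of the orders over `kb` from factorisations over `k1`.** -/
theorem s35bs_ord_of_factor
    (halg : ∀ c : kb, ∃ p : k1[X], p.Monic ∧ (p.map j).eval c = 0)
    (xb : ↥Fb) [Algebra.IsAlgebraic kb⟮xb⟯ ↥Fb] {u : ↥F1} (m : ℕ)
    (hfac : ∀ 𝒪 : ValuationSubring ↥F1, (∀ c : k1, algebraMap k1 ↥F1 c ∈ 𝒪) →
      (∀ z ∈ 𝒪, ∃ p : k1[X], p.Monic ∧ aeval z p ∈ 𝒪.nonunits) →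
      ∃ ω e : ↥F1, u = ω * e ^ m ∧ ω ∈ 𝒪 ∧ ω⁻¹ ∈ 𝒪)
    (v : Place kb ↥Fb) : (m : ℤ) ∣ v.ord (s35bs_emb j F1 Fb hF1 u) := by
  set ι := s35bs_emb j F1 Fb hF1 with hι
  set 𝒪 : ValuationSubring ↥F1 := v.toValuationSubring.comap ι with h𝒪
  have h𝒪k : ∀ c : k1, algebraMap k1 ↥F1 c ∈ 𝒪 := by
    intro c
    rw [h𝒪, ValuationSubring.mem_comap, hι, s35bs_emb_algebraMap]
    exact v.algebraMap_mem' _
  have hcomp : ι.comp (algebraMap k1 ↥F1) = (algebraMap kb ↥Fb).comp j :=
    RingHom.ext fun c => s35bs_emb_algebraMap j F1 Fb hF1 c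
  have h𝒪alg : ∀ z ∈ 𝒪, ∃ p : k1[X], p.Monic ∧ aeval z p ∈ 𝒪.nonunits := by
    intro z hz
    have hz' : ι z ∈ v.toValuationSubring := hz
    obtain ⟨c, hc⟩ := s35bs_exists_const Fb xb v hz'
    obtain ⟨p, hpm, hpc⟩ := halg c
    refine ⟨p, hpm, ?_⟩
    rw [h𝒪, s35bs_mem_comap_nonunits]
    -- work in the valuation ring
    set a : v.toValuationSubring := ⟨ι z, hz'⟩ with ha
    set b : v.toValuationSubring := algebraMap kb v.toValuationSubring c with hb
    set f : k1 →+* v.toValuationSubring := (algebraMap kb v.toValuationSubring).comp j with hf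
    have h1 : a - b ∈ maximalIdeal v.toValuationSubring := by
      rw [← ValuationSubring.coe_mem_nonunits_iff]
      exact hc
    obtain ⟨t, ht⟩ := Polynomial.sub_dvd_eval_sub a b (p.map f)
    have h3 : (p.map f).eval b = 0 := by
      rw [Polynomial.eval_map, hf, hb, ← Polynomial.hom_eval₂, ← Polynomial.eval_map, hpc,
        map_zero]
    rw [h3, sub_zero] at ht
    have h4 : (p.map f).eval a ∈ maximalIdeal v.toValuationSubring := by
      rw [ht]
      exact Ideal.mul_mem_right _ _ h1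
    have h5 : (((p.map f).eval a : v.toValuationSubring) : ↥Fb) = ι (aeval z p) := by
      rw [Polynomial.eval_map, ← v.toValuationSubring.subtype_apply, Polynomial.hom_eval₂,
        Polynomial.aeval_def, Polynomial.hom_eval₂, hcomp]
      rfl
    rw [← h5, ValuationSubring.coe_mem_nonunits_iff]
    exact h4
  obtain ⟨ω, e, hu, hω, hω'⟩ := hfac 𝒪 h𝒪k h𝒪alg
  rcases eq_or_ne u 0 with rfl | hu0
  · rw [map_zero, v.ord_zero]
    exact dvd_zero _
  have hω0 : ω ≠ 0 := by
    rintro rfl
    rw [zero_mul] at hu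
    exact hu0 hu
  have hem0 : e ^ m ≠ 0 := by
    intro h0
    rw [h0, mul_zero] at hu
    exact hu0 hu
  have hιω0 : ι ω ≠ 0 := (map_ne_zero ι).mpr hω0
  have hιem0 : ι e ^ m ≠ 0 := by
    rw [← map_pow]
    exact (map_ne_zero ι).mpr hem0
  have hordω : v.ord (ι ω) = 0 := by
    have a1 := (hw_mem_iff_ord_nonneg v hιω0).1 hω
    have hinv : (ι ω)⁻¹ ∈ v.toValuationSubring := by
      rw [← map_inv₀]
      exact hω'
    have a2 := (hw_mem_iff_ord_nonneg v (inv_ne_zero hιω0)).1 hinv
    rw [v.ord_inv] at a2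
    omega
  rw [hu, map_mul, map_pow, v.ord_mul hιω0 hιem0, hordω, zero_add, rt_ord_pow]
  exact dvd_mul_right _ _

end Ord

end Fermat.Agent.S35
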