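/-
Project S35, cell [ABEL-SS] (helper13): STABILISATION OF A MONOTONE FAMILY OF FUNCTION FIELDS OF
BOUNDED DEGREE.  Prefix `s35bs_`.

`𝔽 i ⊆ kb((X))` a monotone family of intermediate fields (indexed by a preorder), all containing `x̄`,
with `[𝔽 i : kb(x̄)] ≤ n` finite: the family is constant above some index (choose an index where the
degree is maximal).  This is what makes the exponent of `s35bs_abel` UNIFORM in the level: above the
stabilisation index all composita `kb · coeffMap (κ'(L1))` are ONE field `F̄`.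

* `s35bs_exists_max`   : a bounded `ℕ`-valued function on a preorder has a "local maximum above" any
                         given index;
* `s35bs_eq_of_le_of_finrank_le` : `Fb ≤ Fb'`, `[Fb' : kb(x̄)] ≤ [Fb : kb(x̄)]` ⟹ `Fb = Fb'`;
* `s35bs_stabilise`    : the stabilisation statement.
-/
import Mathlib
import Fermat.Agent.S35.AbelSS.Comp

set_option autoImplicit false
set_option linter.unusedSectionVars false
set_option linter.unusedVariables false
set_option linter.style.haveILetI false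

noncomputable section

namespace Fermat.Agent.S35

open ModularCurve IntermediateField

section Stab

/-- a bounded `ℕ`-valued function on a preorder: above any index there is an index above which the
function does not increase any more. -/
theorem s35bs_exists_max {ι : Type*} [Preorder ι] (d : ι → ℕ) (n : ℕ) (hd : ∀ i, d i ≤ n)
    (i00 : ι) : ∃ i0, i00 ≤ i0 ∧ ∀ i, i0 ≤ i → d i ≤ d i0 := by
  induction hk : n - d i00 using Nat.strong_induction_on generalizing i00 with
  | _ k ih =>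
    by_cases hmax : ∀ i, i00 ≤ i → d i ≤ d i00
    · exact ⟨i00, le_rfl, hmax⟩
    · push Not at hmax
      obtain ⟨i1, hi1, hlt⟩ := hmax
      have h1 := hd i1
      obtain ⟨i0, hi0, hmax0⟩ := ih (n - d i1) (by omega) i1 rfl
      exact ⟨i0, le_trans hi1 hi0, hmax0⟩

variable {kb : Type*} [Field kb]

/-- two nested function fields of the same (finite) degree over `kb(x̄)` coincide. -/
theorem s35bs_eq_of_le_of_finrank_le {Fb Fb' : IntermediateField kb (LaurentSeries kb)}
    (hle : Fb ≤ Fb') {x : LaurentSeries kb} (hx : x ∈ Fb)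
    [FiniteDimensional kb⟮(⟨x, hle hx⟩ : ↥Fb')⟯ ↥Fb']
    (hdeg : Module.finrank kb⟮(⟨x, hle hx⟩ : ↥Fb')⟯ ↥Fb' ≤
      Module.finrank kb⟮(⟨x, hx⟩ : ↥Fb)⟯ ↥Fb) : Fb = Fb' := by
  apply le_antisymm hle
  set K0 : IntermediateField kb (LaurentSeries kb) := kb⟮x⟯ with hK0
  have hK0 : K0 ≤ Fb := by
    rw [IntermediateField.adjoin_le_iff, Set.singleton_subset_iff]
    exact hx
  have h1 : IntermediateField.relfinrank K0 Fb = Module.finrank kb⟮(⟨x, hx⟩ : ↥Fb)⟯ ↥Fb := by
    have := congrArg Cardinal.toNat (s35bs_relrank_eq Fb (⟨x, hx⟩ : ↥Fb))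
    exact this
  have h2 : IntermediateField.relfinrank K0 Fb' =
      Module.finrank kb⟮(⟨x, hle hx⟩ : ↥Fb')⟯ ↥Fb' := by
    have := congrArg Cardinal.toNat (s35bs_relrank_eq Fb' (⟨x, hle hx⟩ : ↥Fb'))
    exact this
  have h3 := IntermediateField.relfinrank_mul_relfinrank hK0 hle
  have hpos : 0 < Module.finrank kb⟮(⟨x, hle hx⟩ : ↥Fb')⟯ ↥Fb' := Module.finrank_pos
  rw [h1, h2] at h3
  rw [← IntermediateField.relfinrank_eq_one_iff]
  set r := IntermediateField.relfinrank Fb Fb' with hr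
  set d := Module.finrank kb⟮(⟨x, hx⟩ : ↥Fb)⟯ ↥Fb with hd
  set d' := Module.finrank kb⟮(⟨x, hle hx⟩ : ↥Fb')⟯ ↥Fb' with hd'
  have hr0 : r ≠ 0 := by
    rintro h0
    rw [h0, mul_zero] at h3
    omega
  have hd0 : 0 < d := by
    rcases Nat.eq_zero_or_pos d with h0 | h0
    · rw [h0, zero_mul] at h3
      omega
    · exact h0
  by_contra hne
  have hr2 : 2 ≤ r := by omega
  have : d * 2 ≤ d * r := Nat.mul_le_mul_left d hr2
  omega

/-- **stabilisation.** -/
theorem s35bs_stabilise {ι : Type*} [Preorder ι]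
    (𝔽 : ι → IntermediateField kb (LaurentSeries kb)) (hmono : Monotone 𝔽)
    (x : LaurentSeries kb) (hx : ∀ i, x ∈ 𝔽 i) (n : ℕ)
    (hfin : ∀ i, FiniteDimensional kb⟮(⟨x, hx i⟩ : ↥(𝔽 i))⟯ ↥(𝔽 i))
    (hdeg : ∀ i, Module.finrank kb⟮(⟨x, hx i⟩ : ↥(𝔽 i))⟯ ↥(𝔽 i) ≤ n) (i00 : ι) :
    ∃ i0, i00 ≤ i0 ∧ ∀ i, i0 ≤ i → 𝔽 i = 𝔽 i0 := by
  obtain ⟨i0, hi0, hmax⟩ := s35bs_exists_max
    (fun i => Module.finrank kb⟮(⟨x, hx i⟩ : ↥(𝔽 i))⟯ ↥(𝔽 i)) n hdeg i00
  refine ⟨i0, hi0, fun i hi => ?_⟩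
  haveI := hfin i
  exact (s35bs_eq_of_le_of_finrank_le (hmono hi) (hx i0) (hmax i hi)).symm

end Stab

end Fermat.Agent.S35
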