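/-
Project S35, cell [ABEL-SS] / [RD-k] (helper13), part (a): DESCENT OF MEMBERSHIP ALONG A CONSTANT FIELD
EXTENSION, WITHOUT GALOIS THEORY.  Prefix `s35bs_`.

`k1 → kb` fields, `F1 ⊆ k1((X))` an intermediate field, `F̄ := kb(coeffMap F1) ⊆ kb((X))`.

* `s35bs_lam l`  : a `k1`-linear functional `l : kb → k1` applied coefficientwise, `kb((X)) → k1((X))`;
* `s35bs_lam_mul` : it is `k1((X))`-semilinear: `Λ (coeffMap f · y) = f · Λ y`;
* `s35bs_lam_mem` : it maps the `kb`-span of `coeffMap '' F1` into `F1`;
* `s35bs_mem_of_map_mem_adjoin` : **`ρ ∈ k1((X))` with `coeffMap ρ ∈ kb(coeffMap F1)` lies in `F1`**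
  (write `coeffMap ρ · b = a` with `a, b` in the span, `b ≠ 0`, choose `l` not killing a coefficient
  of `b`: `ρ = Λ a / Λ b`).
-/
import Mathlib
import Fermat.Prelude.Def_ModularCurve_LaurentCoeff

set_option autoImplicit false
set_option linter.unusedSectionVars false
set_option linter.unusedVariables false

noncomputable section

namespace Fermat.Agent.S35

open ModularCurve

section Lin

variable {k1 kb : Type*} [Field k1] [Field kb] [Algebra k1 kb]

/-- a `k1`-linear functional on `kb`, applied coefficientwise. -/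
def s35bs_lam (l : kb →ₗ[k1] k1) (y : LaurentSeries kb) : LaurentSeries k1 :=
  HahnSeries.map y l

@[simp] theorem s35bs_lam_coeff (l : kb →ₗ[k1] k1) (y : LaurentSeries kb) (n : ℤ) :
    (s35bs_lam l y).coeff n = l (y.coeff n) := rfl

theorem s35bs_lam_support (l : kb →ₗ[k1] k1) (y : LaurentSeries kb) :
    (s35bs_lam l y).support ⊆ y.support := by
  intro n hn
  rw [HahnSeries.mem_support] at hn ⊢
  intro h0
  apply hn
  rw [s35bs_lam_coeff, h0, map_zero]

theorem s35bs_lam_add (l : kb →ₗ[k1] k1) (y z : LaurentSeries kb) :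
    s35bs_lam l (y + z) = s35bs_lam l y + s35bs_lam l z := by
  ext n
  simp

theorem s35bs_lam_zero (l : kb →ₗ[k1] k1) : s35bs_lam l (0 : LaurentSeries kb) = 0 := by
  ext n
  simp

theorem s35bs_coeffMap_support (f : LaurentSeries k1) :
    (coeffMap (algebraMap k1 kb) f).support ⊆ f.support := by
  intro n hn
  rw [HahnSeries.mem_support] at hn ⊢
  intro h0
  apply hn
  rw [coeffMap_coeff, h0, map_zero]

/-- **semilinearity**: `Λ (coeffMap f · y) = f · Λ y`. -/
theorem s35bs_lam_mul (l : kb →ₗ[k1] k1) (f : LaurentSeries k1) (y : LaurentSeries kb) :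
    s35bs_lam l (coeffMap (algebraMap k1 kb) f * y) = f * s35bs_lam l y := by
  ext n
  rw [s35bs_lam_coeff, HahnSeries.coeff_mul_left' f.isPWO_support (s35bs_coeffMap_support f),
    HahnSeries.coeff_mul_right' y.isPWO_support (s35bs_lam_support l y), map_sum]
  refine Finset.sum_congr rfl fun ij _ => ?_
  rw [coeffMap_coeff, s35bs_lam_coeff, ← Algebra.smul_def, map_smul, smul_eq_mul]

/-- `Λ (C e · coeffMap f) = C (l e) · f`. -/
theorem s35bs_lam_const_mul_coeffMap (l : kb →ₗ[k1] k1) (e : kb) (f : LaurentSeries k1) :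
    s35bs_lam l (algebraMap kb (LaurentSeries kb) e * coeffMap (algebraMap k1 kb) f) =
      algebraMap k1 (LaurentSeries k1) (l e) * f := by
  ext n
  rw [s35bs_lam_coeff, algebraMap_laurentSeries_eq_single, algebraMap_laurentSeries_eq_single,
    HahnSeries.coeff_single_zero_mul, HahnSeries.coeff_single_zero_mul, coeffMap_coeff,
    mul_comm, ← Algebra.smul_def, map_smul, smul_eq_mul, mul_comm]

variable (F1 : IntermediateField k1 (LaurentSeries k1))

/-- the image of `F1`, as a multiplicative submonoid. -/
theorem s35bs_image_eq_submonoid :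
    (coeffMap (algebraMap k1 kb) '' (F1 : Set (LaurentSeries k1))) =
      ((F1.toSubfield.toSubring.toSubmonoid.map
        (coeffMap (algebraMap k1 kb) : LaurentSeries k1 →* LaurentSeries kb) :
          Submonoid (LaurentSeries kb)) : Set (LaurentSeries kb)) := by
  ext y
  simp

/-- `Λ` maps the `kb`-algebra generated by `coeffMap '' F1` into `F1`. -/
theorem s35bs_lam_mem (l : kb →ₗ[k1] k1) {a : LaurentSeries kb}
    (ha : a ∈ Algebra.adjoin kb
      (coeffMap (algebraMap k1 kb) '' (F1 : Set (LaurentSeries k1)))) :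
    s35bs_lam l a ∈ F1 := by
  have ha' : a ∈ Subalgebra.toSubmodule (Algebra.adjoin kb
      (coeffMap (algebraMap k1 kb) '' (F1 : Set (LaurentSeries k1)))) := ha
  rw [Algebra.adjoin_eq_span, s35bs_image_eq_submonoid, Submonoid.closure_eq,
    ← s35bs_image_eq_submonoid] at ha'
  have key : ∀ e : kb, s35bs_lam l (algebraMap kb (LaurentSeries kb) e * a) ∈ F1 := by
    clear ha
    induction ha' using Submodule.span_induction with
    | mem x hx =>
      intro e
      obtain ⟨f, hf, rfl⟩ := hx
      rw [s35bs_lam_const_mul_coeffMap]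
      exact F1.mul_mem (F1.algebraMap_mem _) hf
    | zero => intro e; rw [mul_zero, s35bs_lam_zero]; exact F1.zero_mem
    | add x y _ _ hx hy => intro e; rw [mul_add, s35bs_lam_add]; exact F1.add_mem (hx e) (hy e)
    | smul e' x _ ih =>
      intro e
      rw [Algebra.smul_def, ← mul_assoc, ← map_mul]
      exact ih (e * e')
  have := key 1
  rwa [map_one, one_mul] at this

/-- **descent of membership**: a series over `k1` whose image lies in `kb(coeffMap F1)` lies in
`F1`. -/
theorem s35bs_mem_of_map_mem_adjoin {ρ : LaurentSeries k1}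
    (h : coeffMap (algebraMap k1 kb) ρ ∈ IntermediateField.adjoin kb
      (coeffMap (algebraMap k1 kb) '' (F1 : Set (LaurentSeries k1)))) :
    ρ ∈ F1 := by
  rw [IntermediateField.mem_adjoin_iff_div] at h
  obtain ⟨a, ha, b, hb, hab⟩ := h
  by_cases hb0 : b = 0
  · rw [hb0, div_zero] at hab
    have hρ : ρ = 0 := by
      ext n
      have := congrArg (fun z : LaurentSeries kb => z.coeff n) hab
      simp only [coeffMap_coeff, HahnSeries.coeff_zero] at this
      rw [HahnSeries.coeff_zero]
      exact (map_eq_zero (algebraMap k1 kb)).mp this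
    rw [hρ]
    exact F1.zero_mem
  · -- a coefficient of `b` which is not killed
    obtain ⟨n, hn⟩ : ∃ n : ℤ, b.coeff n ≠ 0 := by
      by_contra hall
      push Not at hall
      exact hb0 (HahnSeries.ext (funext fun n => by rw [hall n, HahnSeries.coeff_zero]))
    obtain ⟨l, hl⟩ := Module.Projective.exists_dual_ne_zero k1 hn
    have hmul : coeffMap (algebraMap k1 kb) ρ * b = a := by
      rw [hab, div_mul_cancel₀ _ hb0]
    have h1 := congrArg (s35bs_lam l) hmul
    rw [s35bs_lam_mul] at h1
    have hlb : s35bs_lam l b ≠ 0 := by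
      intro h0
      apply hl
      have := congrArg (fun z : LaurentSeries k1 => z.coeff n) h0
      simpa using this
    have hρ : ρ = s35bs_lam l a / s35bs_lam l b := by
      rw [eq_div_iff hlb, h1]
    rw [hρ]
    exact F1.div_mem (s35bs_lam_mem F1 l ha) (s35bs_lam_mem F1 l hb)

end Lin

end Fermat.Agent.S35
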